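import Mathlib

/-!
# Programme I, block D-Pet: the invariant measure of `ℍ` is positive on open sets (helper2)

* `instance : (volume : Measure ℍ).IsOpenPosMeasure`;
* `eq_zero_of_ae_eq_zero` : a continuous function on `ℍ` vanishing almost everywhere vanishes.
-/

namespace Fermat.Agent.FF3.PetFD

open UpperHalfPlane MeasureTheory Set
open scoped ENNReal NNReal

theorem volume_pos_of_isOpen {U : Set ℍ} (hU : IsOpen U) (hne : U.Nonempty) :
    0 < volume U := by
  rw [UpperHalfPlane.volume_eq_lintegral]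
  have hopen : IsOpen ((↑) '' U : Set ℂ) := isOpenEmbedding_coe.isOpenMap U hU
  have hne' : ((↑) '' U : Set ℂ).Nonempty := hne.image _
  have hmeas : Measurable fun z : ℂ => ((↑((1 / ‖z.im‖₊) ^ 2 : ℝ≥0)) : ℝ≥0∞) := by fun_prop
  rw [setLIntegral_pos_iff hmeas]
  have hsub : ((↑) '' U : Set ℂ) ⊆
      Function.support (fun z : ℂ => ((↑((1 / ‖z.im‖₊) ^ 2 : ℝ≥0)) : ℝ≥0∞)) ∩ ((↑) '' U) := by
    rintro _ ⟨τ, hτ, rfl⟩
    refine ⟨?_, ⟨τ, hτ, rfl⟩⟩
    rw [Function.mem_support]
    have him : τ.im ≠ 0 := τ.im_ne_zero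
    simp [him]
  exact lt_of_lt_of_le (hopen.measure_pos volume hne') (measure_mono hsub)

instance isOpenPosMeasure_volume : (volume : Measure ℍ).IsOpenPosMeasure :=
  ⟨fun _ hU hne => (volume_pos_of_isOpen hU hne).ne'⟩

/-- A continuous function on `ℍ` which vanishes almost everywhere vanishes identically. -/
theorem eq_zero_of_ae_eq_zero {E : Type*} [TopologicalSpace E] [T2Space E] [Zero E]
    {φ : ℍ → E} (hφ : Continuous φ) (h : ∀ᵐ τ ∂(volume : Measure ℍ), φ τ = 0) (τ : ℍ) :
    φ τ = 0 := by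
  have := Continuous.ae_eq_iff_eq (μ := (volume : Measure ℍ)) hφ (continuous_const (y := (0 : E)))
  exact congrFun (this.mp h) τ

end Fermat.Agent.FF3.PetFD
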