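import Fermat.Agent.FF3.PetFD.Weight

/-!
# Programme I, block D-Pet, node (U4): the standard fundamental domain has finite volume (helper2)

* `volume_fd_lt_top : volume 𝒟 < ∞` (for the invariant measure `dx dy / y²` of Mathlib);
* `lintegral_chi0_lt_top : ∫⁻ τ, chi0 τ < ∞`.
-/

namespace Fermat.Agent.FF3.PetFD

open UpperHalfPlane ModularGroup MeasureTheory Set
open scoped MatrixGroups Modular ENNReal NNReal

/-- Points of `𝒟` have imaginary part at least `1/2` (in fact `√3/2`). -/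
theorem one_half_le_im_of_mem_fd {τ : ℍ} (h : τ ∈ 𝒟) : 1 / 2 ≤ τ.im := by
  have h3 := three_le_four_mul_im_sq_of_mem_fd h
  by_contra hlt
  rw [not_le] at hlt
  have hpos := τ.im_pos
  nlinarith

theorem abs_re_le_of_mem_fd {τ : ℍ} (h : τ ∈ 𝒟) : |τ.re| ≤ 1 / 2 := h.2

/-- The integrand of the invariant measure. -/
noncomputable def dens (p : ℝ × ℝ) : ℝ≥0∞ := ↑((1 / ‖p.2‖₊) ^ 2 : ℝ≥0)

theorem measurable_dens : Measurable dens := by
  unfold dens
  fun_prop

theorem dens_eq_ofReal {p : ℝ × ℝ} (hp : 0 < p.2) :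
    dens p = ENNReal.ofReal (p.2 ^ (-2 : ℝ)) := by
  unfold dens
  rw [ENNReal.ofReal, ENNReal.coe_inj]
  ext
  rw [Real.coe_toNNReal _ (Real.rpow_nonneg hp.le _)]
  push_cast
  rw [Real.rpow_neg hp.le, Real.rpow_two, Real.norm_of_nonneg hp.le, one_div, inv_pow]

theorem lintegral_tail_lt_top :
    ∫⁻ y in Ici (1 / 2 : ℝ), ENNReal.ofReal (y ^ (-2 : ℝ)) < ∞ := by
  rw [setLIntegral_congr Ioi_ae_eq_Ici.symm]
  have hint : IntegrableOn (fun t : ℝ => t ^ (-2 : ℝ)) (Ioi (1 / 2 : ℝ)) :=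
    integrableOn_Ioi_rpow_of_lt (by norm_num) (by norm_num)
  exact hint.lintegral_lt_top

/-- **The standard fundamental domain has finite invariant volume.** -/
theorem volume_fd_lt_top : volume (𝒟 : Set ℍ) < ∞ := by
  rw [UpperHalfPlane.volume_eq_lintegral]
  set R : Set (ℝ × ℝ) := Icc (-(1 / 2) : ℝ) (1 / 2) ×ˢ Ici (1 / 2 : ℝ) with hR
  have hsub : ((↑) '' (𝒟 : Set ℍ) : Set ℂ) ⊆ Complex.measurableEquivRealProd ⁻¹' R := by
    rintro _ ⟨τ, hτ, rfl⟩
    simp only [mem_preimage, Complex.measurableEquivRealProd_apply, hR, mem_prod, mem_Icc, mem_Ici]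
    exact ⟨abs_le.mp (abs_re_le_of_mem_fd hτ), one_half_le_im_of_mem_fd hτ⟩
  have hmp := Complex.volume_preserving_equiv_real_prod
  calc ∫⁻ z : ℂ in (↑) '' (𝒟 : Set ℍ), ↑((1 / ‖z.im‖₊) ^ 2 : ℝ≥0)
      ≤ ∫⁻ z : ℂ in Complex.measurableEquivRealProd ⁻¹' R, ↑((1 / ‖z.im‖₊) ^ 2 : ℝ≥0) :=
        lintegral_mono_set hsub
    _ = ∫⁻ z : ℂ in Complex.measurableEquivRealProd ⁻¹' R,
          dens (Complex.measurableEquivRealProd z) := rfl
    _ = ∫⁻ p in R, dens p :=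
        hmp.setLIntegral_comp_preimage_emb Complex.measurableEquivRealProd.measurableEmbedding _ _
    _ = ∫⁻ p in R, ENNReal.ofReal (p.2 ^ (-2 : ℝ)) := by
        refine setLIntegral_congr_fun (measurableSet_Icc.prod measurableSet_Ici) fun p hp => ?_
        have hp2 : (1 / 2 : ℝ) ≤ p.2 := hp.2
        exact dens_eq_ofReal (by linarith)
    _ = ∫⁻ x in Icc (-(1 / 2) : ℝ) (1 / 2), ∫⁻ y in Ici (1 / 2 : ℝ),
          ENNReal.ofReal (y ^ (-2 : ℝ)) := by
        rw [hR, Measure.volume_eq_prod, ← Measure.prod_restrict]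
        rw [lintegral_prod]
        exact (by fun_prop : Measurable fun p : ℝ × ℝ => ENNReal.ofReal (p.2 ^ (-2 : ℝ))).aemeasurable
    _ = (∫⁻ y in Ici (1 / 2 : ℝ), ENNReal.ofReal (y ^ (-2 : ℝ))) *
          volume (Icc (-(1 / 2) : ℝ) (1 / 2)) := by
        rw [setLIntegral_const]
    _ < ∞ := by
        refine ENNReal.mul_lt_top lintegral_tail_lt_top ?_
        rw [Real.volume_Icc]
        exact ENNReal.ofReal_lt_top

/-- The weight `chi0` has finite integral. -/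
theorem lintegral_chi0_lt_top : ∫⁻ τ : ℍ, chi0 τ < ∞ := by
  calc ∫⁻ τ : ℍ, chi0 τ ≤ ∫⁻ τ : ℍ, ind τ := lintegral_mono chi0_le_ind
    _ = volume (𝒟 : Set ℍ) := by
        unfold ind
        rw [lintegral_indicator measurableSet_fd, setLIntegral_const, one_mul]
    _ < ∞ := volume_fd_lt_top

end Fermat.Agent.FF3.PetFD
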