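import Mathlib

/-!
# Programme I, block D-Pet, node (U4): a weight for `SL(2, ℤ)` on the upper half-plane (helper2)

`chi0 τ := 1_𝒟(τ) / #{γ : SL(2, ℤ) | γ • τ ∈ 𝒟}` is a measurable partition of unity along the
orbits of `SL(2, ℤ)`:

* `measurable_chi0`, `tsum_chi0 : ∑' γ : SL(2, ℤ), chi0 (γ • τ) = 1`, `chi0_le_indicator`;
* `count τ` (the number of `γ` with `γ • τ ∈ 𝒟`) is invariant, `1 ≤ count τ < ∞`.

No measure theory of fundamental domains (boundaries, stabilisers) is needed: the finiteness of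
`count` comes from Mathlib's classification `ModularGroup.cases_of_mem_fd_smul_mem_fd`.
-/

namespace Fermat.Agent.FF3.PetFD

open UpperHalfPlane ModularGroup MeasureTheory
open scoped MatrixGroups Modular ENNReal

instance countable_SL2Z : Countable SL(2, ℤ) :=
  haveI : Countable (Matrix (Fin 2) (Fin 2) ℤ) := inferInstanceAs (Countable (Fin 2 → Fin 2 → ℤ))
  Subtype.countable

theorem measurable_smul_SL (γ : SL(2, ℤ)) : Measurable fun τ : ℍ => γ • τ :=
  (measurable_const_smul (Matrix.SpecialLinearGroup.mapGL ℝ γ : GL (Fin 2) ℝ) :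
    Measurable fun τ : ℍ => (Matrix.SpecialLinearGroup.mapGL ℝ γ : GL (Fin 2) ℝ) • τ)

theorem measurableSet_fd : MeasurableSet 𝒟 := isClosed_fd.measurableSet

/-- The indicator of the standard fundamental domain, `ℝ≥0∞`-valued. -/
noncomputable def ind (τ : ℍ) : ℝ≥0∞ := Set.indicator 𝒟 (fun _ => (1 : ℝ≥0∞)) τ

theorem measurable_ind : Measurable ind :=
  measurable_const.indicator measurableSet_fd

theorem ind_of_mem {τ : ℍ} (h : τ ∈ 𝒟) : ind τ = 1 := Set.indicator_of_mem h _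

theorem ind_of_not_mem {τ : ℍ} (h : τ ∉ 𝒟) : ind τ = 0 := Set.indicator_of_notMem h _

theorem ind_le_one (τ : ℍ) : ind τ ≤ 1 := by
  by_cases h : τ ∈ 𝒟
  · rw [ind_of_mem h]
  · rw [ind_of_not_mem h]; exact zero_le_one

/-- The number of `γ ∈ SL(2, ℤ)` with `γ • τ ∈ 𝒟`. -/
noncomputable def count (τ : ℍ) : ℝ≥0∞ := ∑' γ : SL(2, ℤ), ind (γ • τ)

theorem measurable_count : Measurable count :=
  Measurable.tsum fun γ => measurable_ind.comp (measurable_smul_SL γ)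

/-- `count` is `SL(2, ℤ)`-invariant. -/
theorem count_smul (g : SL(2, ℤ)) (τ : ℍ) : count (g • τ) = count τ := by
  unfold count
  rw [← (Equiv.mulRight g).tsum_eq (fun γ' => ind (γ' • τ))]
  refine tsum_congr fun γ => ?_
  rw [Equiv.coe_mulRight, mul_smul]

theorem one_le_count (τ : ℍ) : 1 ≤ count τ := by
  obtain ⟨g, hg⟩ := exists_smul_mem_fd τ
  calc (1 : ℝ≥0∞) = ind (g • τ) := (ind_of_mem hg).symm
    _ ≤ count τ := ENNReal.le_tsum g

/-- The finite set of `g` that can move a point of `𝒟` to a point of `𝒟`. -/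
noncomputable def moves : Finset SL(2, ℤ) :=
  {1, -1, T, -T, T⁻¹, -T⁻¹, S, -S, T * S, -(T * S), T⁻¹ * S * T⁻¹, -(T⁻¹ * S * T⁻¹),
    S * T⁻¹, -(S * T⁻¹), S * T, -(S * T), T * S * T, -(T * S * T), T⁻¹ * S, -(T⁻¹ * S)}

theorem mem_moves {z : ℍ} {g : SL(2, ℤ)} (hz : z ∈ 𝒟) (hg : g • z ∈ 𝒟) : g ∈ moves := by
  have h := cases_of_mem_fd_smul_mem_fd hz hg
  simp only [moves, Finset.mem_insert, Finset.mem_singleton]
  rcases h with (h | h) | ⟨(h | h), -⟩ | ⟨(h | h), -⟩ | ⟨(h | h), -⟩ | ⟨(h | h), -⟩ |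
    ⟨(h | h), -⟩ | ⟨(h | h), -⟩ | ⟨(h | h), -⟩ | ⟨(h | h), -⟩ | ⟨(h | h), -⟩ <;> simp [h]

theorem count_lt_top (τ : ℍ) : count τ < ∞ := by
  obtain ⟨g₀, hg₀⟩ := exists_smul_mem_fd τ
  -- every `γ` with `γ • τ ∈ 𝒟` is of the form `m * g₀` with `m ∈ moves`
  have hsupp : ∀ γ : SL(2, ℤ), γ ∉ moves.image (fun m => m * g₀) → ind (γ • τ) = 0 := by
    intro γ hγ
    by_contra hne
    have hmem : γ • τ ∈ 𝒟 := by
      by_contra h
      exact hne (ind_of_not_mem h)
    have h1 : (γ * g₀⁻¹) • (g₀ • τ) ∈ 𝒟 := by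
      rw [← mul_smul, inv_mul_cancel_right]; exact hmem
    have h2 := mem_moves hg₀ h1
    exact hγ (Finset.mem_image.mpr ⟨γ * g₀⁻¹, h2, by rw [inv_mul_cancel_right]⟩)
  unfold count
  rw [tsum_eq_sum hsupp]
  exact ENNReal.sum_lt_top.mpr fun γ _ => (ind_le_one _).trans_lt ENNReal.one_lt_top

theorem count_ne_zero (τ : ℍ) : count τ ≠ 0 :=
  (lt_of_lt_of_le zero_lt_one (one_le_count τ)).ne'

theorem count_ne_top (τ : ℍ) : count τ ≠ ∞ := (count_lt_top τ).ne

/-- **The weight of `SL(2, ℤ)`**: the indicator of `𝒟` divided by the multiplicity. -/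
noncomputable def chi0 (τ : ℍ) : ℝ≥0∞ := ind τ / count τ

theorem measurable_chi0 : Measurable chi0 := measurable_ind.div measurable_count

theorem chi0_le_ind (τ : ℍ) : chi0 τ ≤ ind τ := by
  unfold chi0
  exact ENNReal.div_le_of_le_mul (by
    calc ind τ = ind τ * 1 := (mul_one _).symm
      _ ≤ ind τ * count τ := mul_le_mul' le_rfl (one_le_count τ))

/-- **`chi0` is a partition of unity along `SL(2, ℤ)`-orbits.** -/
theorem tsum_chi0 (τ : ℍ) : ∑' γ : SL(2, ℤ), chi0 (γ • τ) = 1 := by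
  have h1 : ∀ γ : SL(2, ℤ), chi0 (γ • τ) = ind (γ • τ) * (count τ)⁻¹ := fun γ => by
    unfold chi0
    rw [count_smul, div_eq_mul_inv]
  simp_rw [h1]
  rw [ENNReal.tsum_mul_right]
  exact ENNReal.mul_inv_cancel (count_ne_zero τ) (count_ne_top τ)

end Fermat.Agent.FF3.PetFD
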